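/-
Programme MS (S12, Mazur–Serre end-game), area END (helper8): **at a prime `ℓ` of good reduction, the
torsion points of order prime to `ℓ` whose coordinates satisfy `x^ℓ ≡ x`, `y^ℓ ≡ y` modulo the
maximal ideal (e.g. the points fixed by a Frobenius element) are at most `2ℓ + 1`.**

`A` a valuation subring of a field `L`, `W` a Weierstrass curve over `L` with `A`-integral coefficients
and nonsingular reduction at every integral point, `n` a unit of `A`.

* `eq_of_close_of_nsmul_eq_zero` : two `n`-torsion points with congruent coordinates are equal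
  (`S13/Closeness.sub_inE1_of_close` + `S05/Kernel.eq_zero_of_nsmul_eq_zero`);
* `redPt` : the reduction map `W(L) → Option (k × k)` (`k` the residue field of `A`);
* `finite_ncard_le` : a set `S` of `n`-torsion points whose coordinates satisfy `x^ℓ ≡ x`, `y^ℓ ≡ y`
  is finite with at most `2ℓ + 1` elements.
-/
import Mathlib
import Fermat.Agent.S13.Closeness

set_option autoImplicit false
set_option linter.unusedSectionVars false
set_option linter.style.longLine false

open WeierstrassCurve WeierstrassCurve.Affine Polynomial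

namespace Fermat.Agent.MS.END.FrobCount8

open Fermat.Agent.S05 Fermat.Agent.S13.Closeness

/-! ### close torsion points are equal -/

section Close

variable {K : Type*} [Field K] [DecidableEq K] {Γ₀ : Type*} [LinearOrderedCommGroupWithZero Γ₀]
  {v : Valuation K Γ₀} {W : Affine K}

/-- two `n`-torsion points (`v n = 1`) with congruent coordinates, the first one with nonsingular
reduction, are equal. -/
theorem eq_of_close_of_nsmul_eq_zero (hW : Kernel.IntegralCoeffs v W) {n : ℕ} (hn : v (n : K) = 1)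
    {x y x' y' : K} (h : W.Nonsingular x y) (h' : W.Nonsingular x' y')
    (ht : n • Point.some x y h = 0) (ht' : n • Point.some x' y' h' = 0)
    (hxx : v (x' - x) < 1) (hyy : v (y' - y) < 1)
    (hns : v (WX W x y) = 1 ∨ v (WY W x y) = 1) : x' = x ∧ y' = y := by
  have hx : v x ≤ 1 := Kernel.x_integral_of_nsmul_eq_zero hW h hn ht
  have hy : v y ≤ 1 := vy_le_one hW h.1 hx
  have hD := sub_inE1_of_close hW h h' hx hy hxx hyy hns
  have hnD : n • (Point.some x' y' h' - Point.some x y h) = 0 := by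
    rw [smul_sub, ht, ht', sub_zero]
  have h0 := Kernel.eq_zero_of_nsmul_eq_zero hW hD hn hnD
  have heq : Point.some x' y' h' = Point.some x y h := sub_eq_zero.mp h0
  rw [Point.some.injEq] at heq
  exact heq

end Close

/-! ### counting in the residue field -/

section Count

variable {k : Type*} [Field k] [DecidableEq k]

/-- the roots of `X^ℓ - X`. -/
noncomputable def frobRoots (k : Type*) [Field k] [DecidableEq k] (ℓ : ℕ) : Finset k :=
  ((X : k[X]) ^ ℓ - X).roots.toFinset

theorem X_pow_sub_X_ne_zero' {ℓ : ℕ} (hℓ : 2 ≤ ℓ) : ((X : k[X]) ^ ℓ - X) ≠ 0 :=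
  FiniteField.X_pow_card_sub_X_ne_zero k (by omega)

theorem mem_frobRoots {ℓ : ℕ} (hℓ : 2 ≤ ℓ) {s : k} : s ∈ frobRoots k ℓ ↔ s ^ ℓ = s := by
  unfold frobRoots
  rw [Multiset.mem_toFinset, mem_roots (X_pow_sub_X_ne_zero' hℓ), IsRoot.def, eval_sub, eval_pow,
    eval_X, sub_eq_zero]

theorem card_frobRoots_le {ℓ : ℕ} (hℓ : 2 ≤ ℓ) : (frobRoots k ℓ).card ≤ ℓ := by
  unfold frobRoots
  refine (Multiset.toFinset_card_le _).trans ((card_roots' _).trans ?_)
  exact (FiniteField.X_pow_card_sub_X_natDegree_eq k (by omega)).le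

/-- the roots of the monic quadratic `X² + bX - c`. -/
noncomputable def quadRoots (b c : k) : Finset k :=
  ((X : k[X]) ^ 2 + C b * X - C c).roots.toFinset

theorem quad_ne_zero (b c : k) : ((X : k[X]) ^ 2 + C b * X - C c) ≠ 0 := by
  intro h
  have h1 := congrArg (fun q : k[X] => q.coeff 2) h
  simp only [coeff_sub, coeff_add, coeff_X_pow, if_true, coeff_C_mul, coeff_X, coeff_C,
    coeff_zero] at h1
  norm_num at h1

theorem mem_quadRoots {b c t : k} : t ∈ quadRoots b c ↔ t ^ 2 + b * t = c := by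
  unfold quadRoots
  rw [Multiset.mem_toFinset, mem_roots (quad_ne_zero b c), IsRoot.def, eval_sub, eval_add, eval_pow,
    eval_X, eval_mul, eval_C, eval_C, eval_X, sub_eq_zero]

theorem card_quadRoots_le (b c : k) : (quadRoots b c).card ≤ 2 := by
  unfold quadRoots
  refine (Multiset.toFinset_card_le _).trans ((card_roots' _).trans ?_)
  refine (natDegree_sub_le _ _).trans (max_le ((natDegree_add_le _ _).trans (max_le ?_ ?_)) ?_)
  · rw [natDegree_X_pow]
  · exact (natDegree_C_mul_le _ _).trans (natDegree_X_le.trans (by norm_num))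
  · rw [natDegree_C]
    norm_num

/-- the affine points `(s, t)` of `t² + (a₁ s + a₃) t = s³ + a₂ s² + a₄ s + a₆` with `s^ℓ = s`. -/
noncomputable def affFin (a₁ a₂ a₃ a₄ a₆ : k) (ℓ : ℕ) : Finset (k × k) :=
  (frobRoots k ℓ).biUnion fun s =>
    (quadRoots (a₁ * s + a₃) (s ^ 3 + a₂ * s ^ 2 + a₄ * s + a₆)).image fun t => (s, t)

theorem mem_affFin {a₁ a₂ a₃ a₄ a₆ : k} {ℓ : ℕ} (hℓ : 2 ≤ ℓ) {s t : k} (hs : s ^ ℓ = s)
    (hst : t ^ 2 + a₁ * s * t + a₃ * t = s ^ 3 + a₂ * s ^ 2 + a₄ * s + a₆) :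
    (s, t) ∈ affFin a₁ a₂ a₃ a₄ a₆ ℓ := by
  unfold affFin
  rw [Finset.mem_biUnion]
  refine ⟨s, (mem_frobRoots hℓ).2 hs, Finset.mem_image.2 ⟨t, mem_quadRoots.2 ?_, rfl⟩⟩
  rw [← hst]
  ring

theorem card_affFin_le (a₁ a₂ a₃ a₄ a₆ : k) {ℓ : ℕ} (hℓ : 2 ≤ ℓ) :
    (affFin a₁ a₂ a₃ a₄ a₆ ℓ).card ≤ 2 * ℓ := by
  unfold affFin
  refine Finset.card_biUnion_le.trans ?_
  calc ∑ s ∈ frobRoots k ℓ,
        ((quadRoots (a₁ * s + a₃) (s ^ 3 + a₂ * s ^ 2 + a₄ * s + a₆)).image fun t => (s, t)).card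
      ≤ ∑ _s ∈ frobRoots k ℓ, 2 :=
        Finset.sum_le_sum fun s _ => Finset.card_image_le.trans (card_quadRoots_le _ _)
    _ = (frobRoots k ℓ).card * 2 := by rw [Finset.sum_const, smul_eq_mul]
    _ ≤ ℓ * 2 := Nat.mul_le_mul_right 2 (card_frobRoots_le hℓ)
    _ = 2 * ℓ := Nat.mul_comm _ _

/-- the possible reductions: `none` (the point at infinity) or an affine point. -/
noncomputable def redFin (a₁ a₂ a₃ a₄ a₆ : k) (ℓ : ℕ) : Finset (Option (k × k)) :=
  insert none ((affFin a₁ a₂ a₃ a₄ a₆ ℓ).image some)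

theorem card_redFin_le (a₁ a₂ a₃ a₄ a₆ : k) {ℓ : ℕ} (hℓ : 2 ≤ ℓ) :
    (redFin a₁ a₂ a₃ a₄ a₆ ℓ).card ≤ 2 * ℓ + 1 := by
  unfold redFin
  refine (Finset.card_insert_le _ _).trans (Nat.succ_le_succ ?_)
  exact Finset.card_image_le.trans (card_affFin_le a₁ a₂ a₃ a₄ a₆ hℓ)

end Count

/-! ### the reduction map and the count -/

section Red

variable {L : Type*} [Field L] [DecidableEq L] (A : ValuationSubring L) (W : Affine L)

/-- the residue field of `A`. -/
abbrev ResF (A : ValuationSubring L) : Type _ := IsLocalRing.ResidueField ↥A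

/-- the residue of an element of `L` (`0` if it is not integral). -/
noncomputable def resL (x : L) : ResF A := by
  classical
  exact if hx : x ∈ A then IsLocalRing.residue ↥A ⟨x, hx⟩ else 0

theorem resL_of_mem {x : L} (hx : x ∈ A) : resL A x = IsLocalRing.residue ↥A ⟨x, hx⟩ := by
  unfold resL
  rw [dif_pos hx]

theorem resL_add {x y : L} (hx : x ∈ A) (hy : y ∈ A) : resL A (x + y) = resL A x + resL A y := by
  rw [resL_of_mem A hx, resL_of_mem A hy, resL_of_mem A (A.add_mem _ _ hx hy), ← map_add]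
  rfl

theorem resL_mul {x y : L} (hx : x ∈ A) (hy : y ∈ A) : resL A (x * y) = resL A x * resL A y := by
  rw [resL_of_mem A hx, resL_of_mem A hy, resL_of_mem A (A.mul_mem _ _ hx hy), ← map_mul]
  rfl

theorem resL_pow {x : L} (hx : x ∈ A) (n : ℕ) : resL A (x ^ n) = resL A x ^ n := by
  rw [resL_of_mem A hx, resL_of_mem A (pow_mem hx n), ← map_pow]
  rfl

theorem resL_eq_iff {x y : L} (hx : x ∈ A) (hy : y ∈ A) :
    resL A x = resL A y ↔ A.valuation (x - y) < 1 := by
  rw [resL_of_mem A hx, resL_of_mem A hy, ← sub_eq_zero, ← map_sub,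
    IsLocalRing.residue_eq_zero_iff, ValuationSubring.valuation_lt_one_iff]
  rfl

/-- the reduction of a point. -/
noncomputable def redPt : W.Point → Option (ResF A × ResF A)
  | 0 => none
  | Point.some (x := x) (y := y) _ => some (resL A x, resL A y)

theorem redPt_zero : redPt A W 0 = none := rfl

theorem redPt_some {x y : L} (h : W.Nonsingular x y) :
    redPt A W (Point.some x y h) = some (resL A x, resL A y) := rfl

variable {A W}

/-- **the count**: a set of `n`-torsion points (`n` a unit of `A`) whose coordinates satisfy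
`x^ℓ ≡ x`, `y^ℓ ≡ y` modulo the maximal ideal has at most `2ℓ + 1` elements, if the reduction is good
(nonsingular at every integral point). -/
theorem finite_ncard_le (hW : Kernel.IntegralCoeffs A.valuation W)
    (hns : ∀ x y : L, W.Equation x y → A.valuation x ≤ 1 →
      A.valuation (WX W x y) = 1 ∨ A.valuation (WY W x y) = 1)
    {n : ℕ} (hn : A.valuation (n : L) = 1) {ℓ : ℕ} (hℓ : 2 ≤ ℓ) (S : Set W.Point)
    (hS : ∀ Q ∈ S, n • Q = 0)
    (hfrob : ∀ (x y : L) (h : W.Nonsingular x y), Point.some x y h ∈ S →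
      A.valuation (x ^ ℓ - x) < 1 ∧ A.valuation (y ^ ℓ - y) < 1) :
    S.Finite ∧ S.ncard ≤ 2 * ℓ + 1 := by
  classical
  obtain ⟨h1, h2, h3, h4, h6⟩ := hW
  have hW' : Kernel.IntegralCoeffs A.valuation W := ⟨h1, h2, h3, h4, h6⟩
  have m1 : W.a₁ ∈ A := (A.valuation_le_one_iff _).1 h1
  have m2 : W.a₂ ∈ A := (A.valuation_le_one_iff _).1 h2
  have m3 : W.a₃ ∈ A := (A.valuation_le_one_iff _).1 h3
  have m4 : W.a₄ ∈ A := (A.valuation_le_one_iff _).1 h4
  have m6 : W.a₆ ∈ A := (A.valuation_le_one_iff _).1 h6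
  set F := redFin (resL A W.a₁) (resL A W.a₂) (resL A W.a₃) (resL A W.a₄) (resL A W.a₆) ℓ with hF
  -- integrality of the torsion points
  have hint : ∀ (x y : L) (h : W.Nonsingular x y), Point.some x y h ∈ S → x ∈ A ∧ y ∈ A := by
    intro x y h hQ
    have hx : A.valuation x ≤ 1 := Kernel.x_integral_of_nsmul_eq_zero hW' h hn (hS _ hQ)
    have hy : A.valuation y ≤ 1 := vy_le_one hW' h.1 hx
    exact ⟨(A.valuation_le_one_iff _).1 hx, (A.valuation_le_one_iff _).1 hy⟩
  have hmaps : Set.MapsTo (redPt A W) S (F : Set (Option (ResF A × ResF A))) := by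
    intro Q hQ
    rcases Q with _ | ⟨x, y, h⟩
    · exact Finset.mem_insert_self _ _
    · obtain ⟨mx, my⟩ := hint x y h hQ
      obtain ⟨fx, fy⟩ := hfrob x y h hQ
      show redPt A W (Point.some x y h) ∈ F
      rw [redPt_some, hF]
      unfold redFin
      refine Finset.mem_insert_of_mem (Finset.mem_image.2 ⟨_, ?_, rfl⟩)
      refine mem_affFin hℓ ?_ ?_
      · rw [← resL_pow A mx, resL_eq_iff A (pow_mem mx ℓ) mx]
        exact fx
      · have heq := (equation_iff x y).1 h.1
        have e1 : resL A (y ^ 2 + W.a₁ * x * y + W.a₃ * y) =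
            resL A y ^ 2 + resL A W.a₁ * resL A x * resL A y + resL A W.a₃ * resL A y := by
          rw [resL_add A (A.add_mem _ _ (pow_mem my 2) (A.mul_mem _ _ (A.mul_mem _ _ m1 mx) my))
            (A.mul_mem _ _ m3 my), resL_add A (pow_mem my 2) (A.mul_mem _ _ (A.mul_mem _ _ m1 mx) my),
            resL_pow A my, resL_mul A (A.mul_mem _ _ m1 mx) my, resL_mul A m1 mx, resL_mul A m3 my]
        have e2 : resL A (x ^ 3 + W.a₂ * x ^ 2 + W.a₄ * x + W.a₆) =
            resL A x ^ 3 + resL A W.a₂ * resL A x ^ 2 + resL A W.a₄ * resL A x + resL A W.a₆ := by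
          rw [resL_add A (A.add_mem _ _ (A.add_mem _ _ (pow_mem mx 3) (A.mul_mem _ _ m2 (pow_mem mx 2)))
              (A.mul_mem _ _ m4 mx)) m6,
            resL_add A (A.add_mem _ _ (pow_mem mx 3) (A.mul_mem _ _ m2 (pow_mem mx 2)))
              (A.mul_mem _ _ m4 mx),
            resL_add A (pow_mem mx 3) (A.mul_mem _ _ m2 (pow_mem mx 2)), resL_pow A mx,
            resL_mul A m2 (pow_mem mx 2), resL_pow A mx, resL_mul A m4 mx]
        rw [← e1, ← e2, heq]
  have hinj : Set.InjOn (redPt A W) S := by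
    intro Q hQ Q' hQ' hQQ'
    rcases Q with _ | ⟨x, y, h⟩ <;> rcases Q' with _ | ⟨x', y', h'⟩
    · rfl
    · rw [redPt_some] at hQQ'
      exact absurd hQQ' (Option.some_ne_none _).symm
    · rw [redPt_some] at hQQ'
      exact absurd hQQ' (Option.some_ne_none _)
    · obtain ⟨mx, my⟩ := hint x y h hQ
      obtain ⟨mx', my'⟩ := hint x' y' h' hQ'
      rw [redPt_some, redPt_some, Option.some.injEq, Prod.mk.injEq] at hQQ'
      have hxx : A.valuation (x' - x) < 1 := (resL_eq_iff A mx' mx).1 hQQ'.1.symm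
      have hyy : A.valuation (y' - y) < 1 := (resL_eq_iff A my' my).1 hQQ'.2.symm
      obtain ⟨ex, ey⟩ := eq_of_close_of_nsmul_eq_zero hW' hn h h' (hS _ hQ) (hS _ hQ') hxx hyy
        (hns x y h.1 ((A.valuation_le_one_iff _).2 mx))
      subst ex
      subst ey
      rfl
  have hfin : S.Finite := Set.Finite.of_injOn hmaps hinj (Finset.finite_toSet F)
  refine ⟨hfin, ?_⟩
  calc S.ncard ≤ (F : Set (Option (ResF A × ResF A))).ncard :=
        Set.ncard_le_ncard_of_injOn (redPt A W) hmaps hinj (Finset.finite_toSet F)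
    _ = F.card := Set.ncard_coe_finset F
    _ ≤ 2 * ℓ + 1 := card_redFin_le _ _ _ _ _ hℓ

end Red

end Fermat.Agent.MS.END.FrobCount8
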