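/-
Programme MS (S12, Mazur–Serre end-game), area END (helper8): **the end step (B-end) of Route B for the
Frey curve.**

`P : FreyPackage`, `E = P.freyCurve⁄ℚ̄`, `ℓ'` an odd prime of good reduction (`ℓ' ∤ abc`), `ℓ' ≠ p`,
`σ` a Frobenius element at a place `A | ℓ'`.

* `good_partial` : nonsingular reduction at every integral point of `Y² = X³ + aX² + bX` when
  `v 2 = v b = v (a² - 4b) = 1`;
* `frey_fixed_ncard_le` : for `n` prime to `ℓ'` the set of `σ`-fixed points of `E[n]` is finite with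
  at most `2ℓ' + 1` elements;
* **`cof_end`** : if `K ⊆ E` has at most `p^k` elements and `(σ - 1) E[p^k] ⊆ K` for all `σ ∈ G_ℚ`
  (e.g. `K = K_k` cyclic of order `p^k` with trivial Galois action on `E[p^k] / K_k`), then
  `p^k ≤ 2ℓ' + 1`;
* `exists_good_prime` : such an `ℓ'` exists; **`not_forall_cof`** : "Cof(k) for all `k`" is impossible.
-/
import Mathlib
import Fermat.Agent.MS.END.FrobCount8
import Fermat.Agent.S05.Glue
import Fermat.Agent.S05.TransportQ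
import Fermat.Agent.S13.FreyDelta
import Fermat.Agent.DivPoly.CardEq29
import Fermat.Agent.ES.J.CycloChar8
import Fermat.Agent.Lib.FrobeniusExists

set_option autoImplicit false
set_option linter.unusedSectionVars false
set_option linter.style.longLine false

open WeierstrassCurve WeierstrassCurve.Affine

namespace Fermat.Agent.MS.END.CofEnd8

open Fermat.Agent.S05 Fermat.Agent.S13.Closeness Fermat.Agent.MS.END.FrobCount8

local notation "Qbar" => AlgebraicClosure ℚ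
local notation "GQ" => (AlgebraicClosure ℚ ≃ₐ[ℚ] AlgebraicClosure ℚ)

/-! ### good reduction of `Y² = X³ + aX² + bX` -/

section Good

variable {K : Type*} [Field K] {Γ₀ : Type*} [LinearOrderedCommGroupWithZero Γ₀]
  {v : Valuation K Γ₀} {W : Affine K}

/-- nonsingular reduction at every integral point, for `Y² = X³ + aX² + bX` with
`v 2 = v b = v (a² - 4b) = 1`, `v a ≤ 1`. -/
theorem good_partial (h1 : W.a₁ = 0) (h3 : W.a₃ = 0) (h6 : W.a₆ = 0) (hv2 : v (2 : K) = 1)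
    (ha : v W.a₂ ≤ 1) (hb : v W.a₄ = 1) (hdisc : v (W.a₂ ^ 2 - 4 * W.a₄) = 1)
    {x y : K} (h : W.Equation x y) (hx : v x ≤ 1) :
    v (WX W x y) = 1 ∨ v (WY W x y) = 1 := by
  have hW : Kernel.IntegralCoeffs v W := by
    refine ⟨?_, ha, ?_, hb.le, ?_⟩
    · rw [h1, map_zero]; exact zero_le_one
    · rw [h3, map_zero]; exact zero_le_one
    · rw [h6, map_zero]; exact zero_le_one
  have hy : v y ≤ 1 := vy_le_one hW h hx
  have e : y ^ 2 = x * (x ^ 2 + W.a₂ * x + W.a₄) := by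
    have := (equation_iff x y).mp h
    rw [h1, h3, h6] at this
    linear_combination this
  have hv3 : v (3 : K) ≤ 1 := Kernel.vle_ofNat_three
  rcases lt_or_eq_of_le hy with hylt | hyeq
  · left
    -- `v y < 1`
    have hprod : v (x * (x ^ 2 + W.a₂ * x + W.a₄)) < 1 := by
      rw [← e, map_pow]
      exact pow_lt_one₀ zero_le hylt (by norm_num)
    rcases lt_or_eq_of_le hx with hxlt | hxeq
    · -- `v x < 1`
      have e1 : WX W x y = -(x * (3 * x + 2 * W.a₂)) - W.a₄ := by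
        unfold WX
        rw [h1]
        ring
      have h2 : v (-(x * (3 * x + 2 * W.a₂))) < 1 := by
        rw [Valuation.map_neg, map_mul]
        have h3' : v (3 * x + 2 * W.a₂) ≤ 1 := by
          refine (v.map_add_le ?_ ?_)
          · exact Kernel.vle_int_mul hv3 hx
          · rw [map_mul, hv2, one_mul]; exact ha
        calc v x * v (3 * x + 2 * W.a₂) ≤ v x * 1 := mul_le_mul_right h3' _
          _ = v x := mul_one _
          _ < 1 := hxlt
      rw [e1, v.map_sub_eq_of_lt_right (by rw [hb]; exact h2), hb]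
    · -- `v x = 1`
      set g := x ^ 2 + W.a₂ * x + W.a₄ with hg
      have hglt : v g < 1 := by
        rw [map_mul, hxeq, one_mul] at hprod
        exact hprod
      have hsq : (2 * x + W.a₂) ^ 2 = 4 * g + (W.a₂ ^ 2 - 4 * W.a₄) := by
        rw [hg]; ring
      have h4 : v (4 * g) < 1 := by
        have : (4 : K) = 2 * 2 := by norm_num
        rw [this, map_mul, map_mul, hv2, one_mul, one_mul]
        exact hglt
      have h5 : v ((2 * x + W.a₂) ^ 2) = 1 := by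
        rw [hsq, v.map_add_eq_of_lt_right (by rw [hdisc]; exact h4), hdisc]
      have h6' : v (2 * x + W.a₂) = 1 := by
        rw [map_pow] at h5
        exact (pow_eq_one_iff_of_nonneg zero_le (by norm_num)).mp h5
      have e1 : WX W x y = -(x * (2 * x + W.a₂)) - g := by
        unfold WX
        rw [h1, hg]
        ring
      have h7 : v (-(x * (2 * x + W.a₂))) = 1 := by
        rw [Valuation.map_neg, map_mul, hxeq, h6', one_mul]
      rw [e1, v.map_sub_eq_of_lt_left (by rw [h7]; exact hglt), h7]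
  · right
    unfold WY
    rw [h1, h3, zero_mul, add_zero, add_zero, map_mul, hv2, one_mul, hyeq]

end Good

/-! ### Frobenius-fixed torsion of the Frey curve -/

section Frey

variable (P : FreyPackage)

/-- the `σ`-fixed points of `E[n]`, as a set. -/
def fixedTors (W : Affine ℚ) (σ : GQ) (n : ℕ) : Set (W⁄Qbar).Point :=
  {Q | n • Q = 0 ∧ σ • Q = Q}

/-- the count on the transported model `Y² = X³ + aX² + bX`. -/
theorem fixed_ncard_le_of_shape {ℓ' : ℕ} (hℓ' : ℓ'.Prime) (hℓ2 : ℓ' ≠ 2)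
    {A : ValuationSubring Qbar} (hA : A.LiesOverPrime ℓ') {σ : GQ} (hσ : A.IsFrobeniusAt σ ℓ')
    (W₂ : Affine ℚ) (h1 : W₂.a₁ = 0) (h3 : W₂.a₃ = 0) (h6 : W₂.a₆ = 0)
    (ha : A.valuation (W₂⁄Qbar).a₂ ≤ 1) (hb : A.valuation (W₂⁄Qbar).a₄ = 1)
    (hdisc : A.valuation ((W₂⁄Qbar).a₂ ^ 2 - 4 * (W₂⁄Qbar).a₄) = 1)
    {n : ℕ} (hn : ¬ ℓ' ∣ n) :
    (fixedTors W₂ σ n).Finite ∧ (fixedTors W₂ σ n).ncard ≤ 2 * ℓ' + 1 := by
  have e1 : (W₂⁄Qbar).a₁ = 0 := by
    show algebraMap ℚ Qbar W₂.a₁ = 0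
    rw [h1, map_zero]
  have e3 : (W₂⁄Qbar).a₃ = 0 := by
    show algebraMap ℚ Qbar W₂.a₃ = 0
    rw [h3, map_zero]
  have e6 : (W₂⁄Qbar).a₆ = 0 := by
    show algebraMap ℚ Qbar W₂.a₆ = 0
    rw [h6, map_zero]
  have hv2 : A.valuation (2 : Qbar) = 1 := Inertia.valuation_two_eq_one hℓ' hA hℓ2
  have hW : Kernel.IntegralCoeffs A.valuation (W₂⁄Qbar) := by
    refine ⟨?_, ha, ?_, hb.le, ?_⟩
    · rw [e1, map_zero]; exact zero_le_one
    · rw [e3, map_zero]; exact zero_le_one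
    · rw [e6, map_zero]; exact zero_le_one
  have hvn : A.valuation ((n : ℕ) : Qbar) = 1 := Inertia.valuation_natCast_eq_one hℓ' hA hn
  refine finite_ncard_le hW (fun x y h hx => good_partial e1 e3 e6 hv2 ha hb hdisc h hx) hvn
    hℓ'.two_le (fixedTors W₂ σ n) (fun Q hQ => hQ.1) ?_
  intro x y h hQ
  have hfix : σ • (Point.some x y h : (W₂⁄Qbar).Point) = Point.some x y h := hQ.2
  obtain ⟨h', hT⟩ := Assembly.galT_some W₂ σ h
  rw [Assembly.galT_apply, hfix, Point.some.injEq] at hT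
  have hx : A.valuation x ≤ 1 := Kernel.x_integral_of_nsmul_eq_zero hW h hvn hQ.1
  have hy : A.valuation y ≤ 1 := vy_le_one hW h.1 hx
  have mx : x ∈ A := (A.valuation_le_one_iff _).1 hx
  have my : y ∈ A := (A.valuation_le_one_iff _).1 hy
  have fx := Fermat.Agent.ES.J.CycloChar8.frob_apply_sub_pow_mem_nonunits hσ mx
  have fy := Fermat.Agent.ES.J.CycloChar8.frob_apply_sub_pow_mem_nonunits hσ my
  rw [ValuationSubring.mem_nonunits_iff] at fx fy
  constructor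
  · have : x ^ ℓ' - x = -(σ x - x ^ ℓ') := by
      have hσx : σ x = x := hT.1.symm
      rw [hσx]; ring
    rw [this, Valuation.map_neg]
    exact fx
  · have : y ^ ℓ' - y = -(σ y - y ^ ℓ') := by
      have hσy : σ y = y := hT.2.symm
      rw [hσy]; ring
    rw [this, Valuation.map_neg]
    exact fy

/-- **the `σ`-fixed points of `E[n]`** (`E` the Frey curve, `σ` a Frobenius at a good odd prime `ℓ'`,
`ℓ' ∤ n`) **are at most `2ℓ' + 1`.** -/
theorem frey_fixed_ncard_le {ℓ' : ℕ} (hℓ' : ℓ'.Prime) (hℓ2 : ℓ' ≠ 2)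
    (ha : ¬ (ℓ' : ℤ) ∣ P.a) (hb : ¬ (ℓ' : ℤ) ∣ P.b) (hc : ¬ (ℓ' : ℤ) ∣ P.c)
    {A : ValuationSubring Qbar} (hA : A.LiesOverPrime ℓ') {σ : GQ} (hσ : A.IsFrobeniusAt σ ℓ')
    {n : ℕ} (hn : ¬ ℓ' ∣ n) :
    (fixedTors P.freyCurve σ n).Finite ∧ (fixedTors P.freyCurve σ n).ncard ≤ 2 * ℓ' + 1 := by
  obtain ⟨W₂, h1, h3, h6, h2, h4, φ, hφ, hφσ⟩ :=
    Glue.transport0_of P TransportQ.transportExistsQ
  have hv := Assembly.liesOver hℓ' hA
  have e2 : (W₂⁄Qbar).a₂ = (P.b : Qbar) ^ P.p - (P.a : Qbar) ^ P.p := by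
    show algebraMap ℚ Qbar W₂.a₂ = _
    rw [h2]; simp
  have e4 : (W₂⁄Qbar).a₄ = -((P.a : Qbar) ^ P.p * (P.b : Qbar) ^ P.p) := by
    show algebraMap ℚ Qbar W₂.a₄ = _
    rw [h4]; simp
  obtain ⟨g1, g2⟩ := FreyArith.good_val P hv hℓ' ha hb hc
  have ha2 : A.valuation (W₂⁄Qbar).a₂ ≤ 1 := by
    rw [e2]
    have := Inertia.valuation_intCast_le_one (A := A) (P.b ^ P.p - P.a ^ P.p)
    simpa using this
  obtain ⟨hfin, hle⟩ := fixed_ncard_le_of_shape hℓ' hℓ2 hA hσ W₂ h1 h3 h6 ha2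
    (by rw [e4]; exact g1) (by rw [e2, e4]; exact g2) hn
  have hmaps : Set.MapsTo φ (fixedTors P.freyCurve σ n) (fixedTors W₂ σ n) := by
    intro Q hQ
    refine ⟨?_, ?_⟩
    · rw [← map_nsmul, hQ.1, map_zero]
    · rw [← hφσ, hQ.2]
  have hinj : Set.InjOn φ (fixedTors P.freyCurve σ n) := fun _ _ _ _ hxy => hφ hxy
  refine ⟨Set.Finite.of_injOn hmaps hinj hfin, ?_⟩
  exact (Set.ncard_le_ncard_of_injOn φ hmaps hinj hfin).trans hle

end Frey

/-! ### the end step -/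

section End

variable (P : FreyPackage)

/-- **(B-end)**: if `(σ - 1) E[p^k]` lies in a set `K` with at most `p^k` elements for every
`σ ∈ G_ℚ`, then `p^k ≤ 2ℓ' + 1` for every odd prime `ℓ' ∤ abc`, `ℓ' ≠ p`. -/
theorem cof_end {ℓ' : ℕ} (hℓ' : ℓ'.Prime) (hℓ2 : ℓ' ≠ 2) (hℓp : ℓ' ≠ P.p)
    (ha : ¬ (ℓ' : ℤ) ∣ P.a) (hb : ¬ (ℓ' : ℤ) ∣ P.b) (hc : ¬ (ℓ' : ℤ) ∣ P.c) (k : ℕ)
    (K : Set (P.freyCurve⁄Qbar).Point) (hKfin : K.Finite) (hKcard : K.ncard ≤ P.p ^ k)
    (hcof : ∀ σ : GQ, ∀ Q : (P.freyCurve⁄Qbar).Point, P.p ^ k • Q = 0 → σ • Q - Q ∈ K) :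
    P.p ^ k ≤ 2 * ℓ' + 1 := by
  classical
  obtain ⟨A, σ, hA, hσ⟩ := Fermat.Agent.Lib.exists_isFrobeniusAt ℓ' hℓ'
  set n : ℕ := P.p ^ k with hn
  have hnpos : 0 < n := pow_pos P.hppos k
  have hℓn : ¬ ℓ' ∣ n := fun h =>
    hℓp ((Nat.prime_dvd_prime_iff_eq hℓ' P.pp).mp (hℓ'.dvd_of_dvd_pow h))
  have hodd : Odd n := P.hp_odd.pow
  have hΔ : (P.freyCurve⁄Qbar).Δ ≠ 0 :=
    Fermat.Agent.S13.FreyDelta.freyCurve_baseChange_Δ_ne_zero P Qbar
  have hnF : ((n : ℕ) : Qbar) ≠ 0 := Nat.cast_ne_zero.mpr hnpos.ne'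
  haveI : Finite (Submodule.torsionBy ℤ (P.freyCurve⁄Qbar).Point (n : ℤ)) :=
    Fermat.Agent.DivPoly.CountFinal.finite_torsionBy (W := (P.freyCurve⁄Qbar)) hodd hnF
  have hcard : Nat.card (Submodule.torsionBy ℤ (P.freyCurve⁄Qbar).Point (n : ℤ)) = n ^ 2 :=
    Fermat.Agent.DivPoly.CardEq29.card_torsionBy_eq (W := (P.freyCurve⁄Qbar)) hΔ hodd
  -- the homomorphism `σ - 1` on `E[n]`
  let T := Submodule.torsionBy ℤ (P.freyCurve⁄Qbar).Point (n : ℤ)
  let f : ↥T →+ (P.freyCurve⁄Qbar).Point :=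
    (Assembly.galT P.freyCurve σ - AddMonoidHom.id _).comp T.subtype.toAddMonoidHom
  have hf : ∀ Q : ↥T, f Q = σ • (Q : (P.freyCurve⁄Qbar).Point) - (Q : (P.freyCurve⁄Qbar).Point) :=
    fun Q => rfl
  have hT : ∀ Q : ↥T, n • (Q : (P.freyCurve⁄Qbar).Point) = 0 := fun Q => by
    have := Q.2
    rw [Submodule.mem_torsionBy_iff, natCast_zsmul] at this
    exact this
  -- `#E[n] = #ker * #range`
  have h1 : Nat.card ↥T = Nat.card ↥f.range * Nat.card ↥f.ker := by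
    rw [AddSubgroup.card_eq_card_quotient_mul_card_addSubgroup f.ker]
    congr 1
    exact Nat.card_congr (QuotientAddGroup.quotientKerEquivRange f).toEquiv
  -- the range lies in `K`
  have h2 : Nat.card ↥f.range ≤ n := by
    have hsub : (f.range : Set (P.freyCurve⁄Qbar).Point) ⊆ K := by
      rintro _ ⟨Q, rfl⟩
      rw [hf]
      exact hcof σ _ (hT Q)
    calc Nat.card ↥f.range = (f.range : Set (P.freyCurve⁄Qbar).Point).ncard :=
          Nat.card_coe_set_eq _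
      _ ≤ K.ncard := Set.ncard_le_ncard hsub hKfin
      _ ≤ n := hKcard
  -- the kernel consists of `σ`-fixed points
  obtain ⟨hfin, hle⟩ := frey_fixed_ncard_le P hℓ' hℓ2 ha hb hc hA hσ hℓn
  have h3 : Nat.card ↥f.ker ≤ 2 * ℓ' + 1 := by
    have hmaps : ∀ Q : ↥f.ker, ((Q : ↥T) : (P.freyCurve⁄Qbar).Point) ∈
        fixedTors P.freyCurve σ n := by
      intro Q
      refine ⟨hT Q, ?_⟩
      have := (AddMonoidHom.mem_ker).1 Q.2
      rw [hf, sub_eq_zero] at this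
      exact this
    haveI : Finite ↥(fixedTors P.freyCurve σ n) := hfin.to_subtype
    calc Nat.card ↥f.ker ≤ Nat.card ↥(fixedTors P.freyCurve σ n) :=
          Nat.card_le_card_of_injective
            (fun Q => (⟨((Q : ↥T) : (P.freyCurve⁄Qbar).Point), hmaps Q⟩ :
              ↥(fixedTors P.freyCurve σ n)))
            (fun Q Q' h => Subtype.ext (Subtype.ext (by
              have h' := congrArg (fun z : ↥(fixedTors P.freyCurve σ n) =>
                (z : (P.freyCurve⁄Qbar).Point)) h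
              exact h')))
      _ = (fixedTors P.freyCurve σ n).ncard := Nat.card_coe_set_eq _
      _ ≤ 2 * ℓ' + 1 := hle
  have h4 : n * n ≤ n * (2 * ℓ' + 1) := by
    calc n * n = n ^ 2 := (sq n).symm
      _ = Nat.card ↥T := hcard.symm
      _ = Nat.card ↥f.range * Nat.card ↥f.ker := h1
      _ ≤ n * (2 * ℓ' + 1) := Nat.mul_le_mul h2 h3
  exact Nat.le_of_mul_le_mul_left h4 hnpos

/-- an odd prime of good reduction different from `p`. -/
theorem exists_good_prime :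
    ∃ ℓ' : ℕ, ℓ'.Prime ∧ ℓ' ≠ 2 ∧ ℓ' ≠ P.p ∧ ¬ (ℓ' : ℤ) ∣ P.a ∧ ¬ (ℓ' : ℤ) ∣ P.b ∧
      ¬ (ℓ' : ℤ) ∣ P.c := by
  obtain ⟨ℓ', hge, hℓ'⟩ :=
    Nat.exists_infinite_primes (P.a.natAbs + P.b.natAbs + P.c.natAbs + P.p + 3)
  have hnd : ∀ z : ℤ, z ≠ 0 → z.natAbs < ℓ' → ¬ (ℓ' : ℤ) ∣ z := by
    intro z hz hlt hdvd
    have h1 : ℓ' ∣ z.natAbs := Int.natCast_dvd.mp hdvd
    have h2 : ℓ' ≤ z.natAbs := Nat.le_of_dvd (Int.natAbs_pos.mpr hz) h1
    omega
  refine ⟨ℓ', hℓ', by omega, by omega, hnd _ P.ha0 (by omega), hnd _ P.hb0 (by omega),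
    hnd _ P.hc0 (by omega)⟩

/-- **"Cof(k) for every `k`" is impossible.** -/
theorem not_forall_cof
    (h : ∀ k : ℕ, ∃ K : Set (P.freyCurve⁄Qbar).Point, K.Finite ∧ K.ncard ≤ P.p ^ k ∧
      ∀ σ : GQ, ∀ Q : (P.freyCurve⁄Qbar).Point, P.p ^ k • Q = 0 → σ • Q - Q ∈ K) : False := by
  obtain ⟨ℓ', hℓ', hℓ2, hℓp, ha, hb, hc⟩ := exists_good_prime P
  obtain ⟨K, hKfin, hKcard, hcof⟩ := h (2 * ℓ' + 1)
  have h1 := cof_end P hℓ' hℓ2 hℓp ha hb hc (2 * ℓ' + 1) K hKfin hKcard hcof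
  have h2 : 2 * ℓ' + 1 < P.p ^ (2 * ℓ' + 1) :=
    Nat.lt_pow_self (by have := P.hp5; omega)
  omega

end End

end Fermat.Agent.MS.END.CofEnd8
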